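import Fermat.Agent.HurwitzStaudt.Sine
import Fermat.Agent.Tau.HasseEisenstein
import Fermat.Agent.RealPoints.GammaPeriod
import Fermat.Agent.Root.SummaryGammaPeriods

/-!
# The series `z² ℘` of the lemniscatic lattice

With `R = z / sl z` the series `R²` is `z² ℘`, `(R φ')²` is its rescaling by `1 + i`, and
`z (R φ')' - R φ'` is linear in the two.
-/

set_option autoImplicit false
set_option linter.style.haveILetI false

noncomputable section

namespace FA.HurwitzStaudt

open PowerSeries Finset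
open FA.HasseEis
open scoped Nat Real

local notation "D" => d⁄dX ℚ

/-- `sl z / z`. -/
def slQuot : ℚ⟦X⟧ := PowerSeries.mk fun n => coeff (n + 1) sl

/-- `z / sl z`. -/
def invSl : ℚ⟦X⟧ := slQuot⁻¹

/-- `z² ℘`. -/
def wpSeries : ℚ⟦X⟧ := invSl ^ 2

/-- `z² ℘` rescaled by `1 + i`. -/
def wpTwist : ℚ⟦X⟧ := (invSl * slD) ^ 2

theorem X_mul_slQuot : X * slQuot = sl := by
  ext n
  rcases n with _ | n
  · simp [sl, slCoeff]
  · rw [coeff_succ_X_mul, slQuot, coeff_mk]

theorem constantCoeff_slQuot : constantCoeff slQuot = 1 := by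
  rw [← coeff_zero_eq_constantCoeff_apply, slQuot, coeff_mk]
  simp [sl, slCoeff]

theorem constantCoeff_invSl : constantCoeff invSl = 1 := by
  rw [invSl, constantCoeff_inv, constantCoeff_slQuot, inv_one]

theorem sl_mul_invSl : sl * invSl = X := by
  rw [← X_mul_slQuot, invSl, mul_assoc,
    PowerSeries.mul_inv_cancel _ (by rw [constantCoeff_slQuot]; exact one_ne_zero), mul_one]

theorem slD_mul_invSl : slD * invSl + sl * D invSl = 1 := by
  have h := congrArg (⇑D) sl_mul_invSl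
  rw [Derivation.leibniz, derivative_X, smul_eq_mul, smul_eq_mul] at h
  rw [show slD = D sl from rfl]
  linear_combination h

theorem X_mul_derivative_invSl : X * D invSl = invSl - slD * invSl ^ 2 := by
  linear_combination invSl * slD_mul_invSl - D invSl * sl_mul_invSl

theorem vOf_wpSeries : vOf wpSeries = -2 * slD * invSl ^ 3 := by
  rw [vOf_eq, wpSeries, derivative_pow]
  push_cast
  linear_combination (2 * invSl) * X_mul_derivative_invSl

theorem rel_wpSeries : rel 4 0 wpSeries = 0 := by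
  rw [rel, vOf_wpSeries, map_zero, map_ofNat, wpSeries]
  linear_combination (4 * invSl ^ 6) * slD_sq -
    4 * invSl ^ 2 * congrArg (fun f : ℚ⟦X⟧ => f ^ 4) sl_mul_invSl

theorem derivative_wpTwist : X * D (invSl * slD) - invSl * slD =
    -(invSl ^ 2 * (1 + sl ^ 4)) := by
  rw [Derivation.leibniz, derivative_slD, smul_eq_mul, smul_eq_mul, map_neg, map_ofNat]
  linear_combination slD * X_mul_derivative_invSl + 2 * invSl * sl ^ 3 * sl_mul_invSl -
    invSl ^ 2 * slD_sq

theorem rel_wpTwist : rel (-16) 0 wpTwist = 0 := by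
  have hv : vOf wpTwist = -2 * (invSl * slD) * (invSl ^ 2 * (1 + sl ^ 4)) := by
    rw [vOf_eq, wpTwist, derivative_pow]
    push_cast
    linear_combination (2 * (invSl * slD)) * derivative_wpTwist
  rw [rel, hv, map_zero, map_neg, map_ofNat, wpTwist]
  linear_combination
    (-4 * invSl ^ 6 * slD ^ 2 * (slD ^ 2 + (1 - sl ^ 4))) * slD_sq +
      16 * invSl ^ 2 * slD ^ 2 * congrArg (fun f : ℚ⟦X⟧ => f ^ 4) sl_mul_invSl

/-- The three series are linearly related. -/
theorem invSl_slD_linear :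
    X * D (invSl * slD) - invSl * slD = -(2 * wpSeries - wpTwist) := by
  rw [derivative_wpTwist, wpSeries, wpTwist]
  linear_combination (-invSl ^ 2) * slD_sq

theorem sq_X_mul_sl : X ^ 2 * sl ^ 2 = wpSeries - wpTwist := by
  rw [wpSeries, wpTwist]
  linear_combination (invSl ^ 2) * slD_sq - (X + sl * invSl) * sl ^ 2 * sl_mul_invSl

/-- The differential equation of the second order. -/
theorem vOf_vOf_wpSeries :
    X * D (vOf wpSeries) = 3 * vOf wpSeries + 6 * wpSeries ^ 2 - 2 * X ^ 4 := by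
  rw [vOf_wpSeries, wpSeries, Derivation.leibniz, Derivation.leibniz, derivative_slD,
    derivative_pow, show (-2 : ℚ⟦X⟧) = C (-2) by rw [map_neg, map_ofNat], derivative_C]
  simp only [smul_eq_mul, mul_zero, add_zero]
  rw [show (C (-2 : ℚ) : ℚ⟦X⟧) = -2 by rw [map_neg, map_ofNat]]
  push_cast
  linear_combination (-6 * slD * invSl ^ 2) * X_mul_derivative_invSl +
    6 * invSl ^ 4 * slD_sq +
    (-4 * sl ^ 3 * invSl ^ 3) * sl_mul_invSl +
    -2 * congrArg (fun f : ℚ⟦X⟧ => f ^ 4) sl_mul_invSl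

/-- Two solutions of the relation with constant term one agree. -/
theorem rel_unique {a b : ℂ} {U V : ℂ⟦X⟧} (hU : coeff 0 U = 1) (hV : coeff 0 V = 1)
    (hrU : rel a b U = 0) (hrV : rel a b V = 0) : U = V := by
  ext j
  induction j using Nat.strong_induction_on with
  | _ j ih =>
    rcases j.eq_zero_or_pos with rfl | hj
    · rw [hU, hV]
    have h1 := coeff_rel (a := a) (b := b) hU hj
    have h2 := coeff_rel (a := a) (b := b) hV hj
    rw [hrU, map_zero] at h1
    rw [hrV, map_zero] at h2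
    rw [uTrunc_congr (d := fun i => coeff i V) fun i _ hi => ih i hi] at h1
    have h4 : (4 * ((j : ℂ) + 1)) ≠ 0 := by
      exact_mod_cast (by omega : 4 * (j + 1) ≠ 0)
    refine mul_left_cancel₀ h4 ?_
    linear_combination h1 - h2

/-- The complex series. -/
def toC : ℚ⟦X⟧ →+* ℂ⟦X⟧ := PowerSeries.map (Rat.castHom ℂ)

theorem coeff_toC (f : ℚ⟦X⟧) (k : ℕ) : coeff k (toC f) = ((coeff k f : ℚ) : ℂ) := by
  simp [toC]

theorem coeff_zero_wpSeries : coeff 0 wpSeries = 1 := by
  simp [wpSeries, constantCoeff_invSl]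

theorem coeff_zero_wpTwist : coeff 0 wpTwist = 1 := by
  simp [wpTwist, constantCoeff_invSl, constantCoeff_slD]

theorem rel_toC {a : ℚ} {U : ℚ⟦X⟧} (h : rel a 0 U = 0) : rel (a : ℂ) 0 (toC U) = 0 := by
  have := map_rel (Rat.castHom ℂ) a 0 U
  rw [h, map_zero, map_zero] at this
  exact this.symm

theorem rescale_wpSeries {γ : ℂ} {a : ℚ} (hγ : γ ^ 4 * 4 = a) {V : ℚ⟦X⟧} (hV : coeff 0 V = 1)
    (hrel : rel a 0 V = 0) : toC V = rescale γ (toC wpSeries) := by
  have h := congrArg (rescale γ) (rel_toC rel_wpSeries)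
  rw [rescale_rel, map_zero, Rat.cast_ofNat, hγ, mul_zero] at h
  exact rel_unique (by rw [coeff_toC, hV, Rat.cast_one])
    (by rw [coeff_rescale, coeff_toC, coeff_zero_wpSeries, pow_zero, one_mul, Rat.cast_one])
    (rel_toC hrel) h

/-- `z² ℘` involves only the powers `z ^ (4n)`. -/
theorem coeff_wpSeries_eq_zero {k : ℕ} (hk : ¬ 4 ∣ k) : coeff k wpSeries = 0 := by
  have h := congrArg (coeff k) (rescale_wpSeries (γ := Complex.I) (a := 4)
    (by rw [Complex.I_pow_four]; norm_num) coeff_zero_wpSeries rel_wpSeries)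
  rw [coeff_rescale, coeff_toC] at h
  by_contra hne
  have h1 : Complex.I ^ k = 1 :=
    mul_right_cancel₀ (Rat.cast_ne_zero.2 hne) (h.symm.trans (one_mul _).symm)
  obtain ⟨q, r, hr, rfl⟩ : ∃ q r, r < 4 ∧ k = 4 * q + r := ⟨k / 4, k % 4, by omega, by omega⟩
  rw [pow_add, pow_mul, Complex.I_pow_four, one_pow, one_mul] at h1
  have h2 := congrArg Complex.re h1
  interval_cases r
  · exact hk (dvd_mul_right 4 q)
  all_goals simp [pow_succ] at h2
  all_goals norm_num at h2

theorem one_add_I_pow_four : (1 + Complex.I) ^ 4 = -4 := by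
  linear_combination (Complex.I ^ 2 + 4 * Complex.I + 5) * Complex.I_sq

theorem toC_wpTwist : toC wpTwist = rescale (1 + Complex.I) (toC wpSeries) :=
  rescale_wpSeries (by rw [one_add_I_pow_four]; norm_num) coeff_zero_wpTwist rel_wpTwist

theorem coeff_wpTwist (n : ℕ) :
    coeff (4 * n) wpTwist = (-4) ^ n * coeff (4 * n) wpSeries := by
  have h := congrArg (coeff (4 * n)) toC_wpTwist
  rw [coeff_rescale, coeff_toC, coeff_toC, pow_mul, one_add_I_pow_four] at h
  exact_mod_cast h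

theorem toC_invSl_slD : toC (invSl * slD) = rescale (1 + Complex.I) (toC invSl) := by
  have h := toC_wpTwist
  rw [wpTwist, wpSeries, map_pow, map_pow, map_pow] at h
  refine (sq_eq_sq_iff_eq_or_eq_neg.1 h).resolve_right fun e => ?_
  have := congrArg (coeff 0) e
  rw [map_neg, coeff_rescale, coeff_toC, coeff_toC] at this
  simp [constantCoeff_invSl, constantCoeff_slD] at this
  norm_num at this

/-- The Bernoulli–Hurwitz number `k! G_k` of the lattice. -/
def bhNum (n : ℕ) : ℚ := ((4 * n)! : ℚ) * coeff (4 * n) wpSeries / (4 * n - 1)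

/-- **The Hurwitz number.** -/
def hurwitzNumber (n : ℕ) : ℚ := bhNum n / 2 ^ (4 * n)

theorem invSl_bhNum (n : ℕ) :
    (-4) ^ n * hval invSl (4 * n) = ((-4) ^ n - 2) * bhNum n := by
  have h1 : coeff (4 * n) (invSl * slD) = (-4) ^ n * coeff (4 * n) invSl := by
    have h := congrArg (coeff (4 * n)) toC_invSl_slD
    rw [coeff_rescale, coeff_toC, coeff_toC, pow_mul, one_add_I_pow_four] at h
    exact_mod_cast h
  have h2 := congrArg (coeff (4 * n)) invSl_slD_linear
  rw [map_sub, show (2 : ℚ⟦X⟧) = C 2 from (map_ofNat _ 2).symm, map_neg, map_sub, coeff_C_mul,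
    coeff_wpTwist, h1] at h2
  have h3 : coeff (4 * n) (X * D (invSl * slD)) = (4 * n : ℚ) * coeff (4 * n) (invSl * slD) := by
    rcases n with _ | n
    · simp
    · rw [show 4 * (n + 1) = 4 * n + 3 + 1 by omega, coeff_succ_X_mul, coeff_derivative]
      push_cast
      ring
  rw [h3, h1] at h2
  have hne : (4 * (n : ℚ) - 1) ≠ 0 := by
    intro e
    have : (4 * n : ℤ) = 1 := by
      have : ((4 * n : ℤ) : ℚ) = ((1 : ℤ) : ℚ) := by push_cast; linarith
      exact_mod_cast this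
    omega
  rw [hval, bhNum]
  field_simp
  linear_combination h2

theorem bhNum_wpTwist {n : ℕ} (hn : 1 ≤ n) :
    (1 - (-4) ^ n) * (bhNum n / (4 * n)) = hval (sl ^ 2) (4 * n - 2) := by
  obtain ⟨m, rfl⟩ : ∃ m, n = m + 1 := ⟨n - 1, by omega⟩
  have h := congrArg (coeff (4 * (m + 1))) sq_X_mul_sl
  rw [coeff_X_pow_mul', if_pos (by omega), map_sub, coeff_wpTwist] at h
  rw [hval, h, bhNum, show 4 * (m + 1) = 4 * (m + 1) - 2 + 1 + 1 by omega, Nat.factorial_succ,
    Nat.factorial_succ, show 4 * (m + 1) - 2 + 1 + 1 = 4 * (m + 1) by omega,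
    show 4 * (m + 1) - 2 + 1 = 4 * m + 3 by omega]
  have : (4 * ((m + 1 : ℕ) : ℚ) - 1) ≠ 0 := by
    push_cast; intro e; linarith [(Nat.cast_nonneg m : (0 : ℚ) ≤ m)]
  push_cast at this ⊢
  field_simp
  ring

/-- The recurrence of the coefficients. -/
theorem coeff_wpSeries_rec {k : ℕ} (hk : 5 ≤ k) :
    ((k : ℚ) - 3) * ((k : ℚ) - 2) * coeff k wpSeries =
      6 * ∑ i ∈ range (k + 1), coeff i wpSeries * coeff (k - i) wpSeries := by
  obtain ⟨j, rfl⟩ : ∃ j, k = j + 1 := ⟨k - 1, by omega⟩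
  have h := congrArg (coeff (j + 1)) vOf_vOf_wpSeries
  rw [coeff_succ_X_mul, coeff_derivative, map_sub, map_add,
    show (3 : ℚ⟦X⟧) = C 3 from (map_ofNat _ 3).symm, coeff_C_mul,
    show (6 : ℚ⟦X⟧) = C 6 from (map_ofNat _ 6).symm, coeff_C_mul,
    show (2 : ℚ⟦X⟧) = C 2 from (map_ofNat _ 2).symm, coeff_C_mul, coeff_X_pow,
    if_neg (by omega), mul_zero, sub_zero, coeff_vOf, sq, coeff_mul,
    Finset.Nat.sum_antidiagonal_eq_sum_range_succ_mk] at h
  push_cast at h ⊢
  linear_combination h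

/-- **The analytic meaning.** -/
theorem tsum_gaussian_eq {n : ℕ} (hn : 1 ≤ n) :
    ∑' p : ℤ × ℤ, (((p.1 : ℂ) + (p.2 : ℂ) * Complex.I) ^ (4 * n))⁻¹ =
      ((2 * (Real.Gamma (1 / 4) ^ 2 / (2 * √(2 * π))) : ℝ) : ℂ) ^ (4 * n) / ((4 * n)! : ℂ) *
        (hurwitzNumber n : ℂ) := by
  obtain ⟨L, h2, h3⟩ := FA.JInj.exists_g₂_g₃ (a := 4) (b := 0) (by norm_num)
  have h₂ : L.g₂ = ((4 * (1 : ℝ) ^ 2 : ℝ) : ℂ) := by rw [h2]; norm_num
  obtain ⟨ω, hω, hper, hval'⟩ := FA.Summary.congruentCurve_realPeriod L one_pos h₂ h3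
  rw [mul_one] at hval'
  have hmem := FA.RealPoints.mem_lattice_square L h₂ h3 hω hper one_pos (by norm_num)
    (fun t ht => by nlinarith [one_lt_pow₀ ht two_ne_zero])
  have hωc : (ω : ℂ) ≠ 0 := Complex.ofReal_ne_zero.mpr hω.ne'
  let e : ℤ × ℤ ≃ L.lattice := Equiv.ofBijective
    (fun p => ⟨(ω : ℂ) * ((p.1 : ℂ) + (p.2 : ℂ) * Complex.I), (hmem _).mpr ⟨p, rfl⟩⟩)
    ⟨fun p q h => by
      have h' := mul_left_cancel₀ hωc (congrArg Subtype.val h)
      have h1 := congrArg Complex.re h'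
      have h2 := congrArg Complex.im h'
      simp at h1 h2
      exact Prod.ext h1 h2,
    fun l => by
      obtain ⟨p, hp⟩ := (hmem _).mp l.2
      exact ⟨p, Subtype.ext hp.symm⟩⟩
  have hU : toC wpSeries = wSeries L := by
    refine rel_unique (a := 4) (b := 0) (by rw [coeff_toC, coeff_zero_wpSeries, Rat.cast_one])
      (by simp [wSeries]) ?_ ?_
    · simpa using rel_toC rel_wpSeries
    · have := rel_wSeries L
      rwa [h2, h3] at this
  have hG : ((coeff (4 * n) wpSeries : ℚ) : ℂ) = ((4 * n : ℂ) - 1) * L.G (4 * n) := by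
    rw [← coeff_toC, hU, wSeries, coeff_mk, if_neg (by omega), wCoeff, if_neg (by omega)]
    push_cast
    rfl
  have hne : ((4 * n : ℂ) - 1) ≠ 0 := by
    intro e'
    have := congrArg Complex.re e'
    simp at this
    have : (1 : ℝ) ≤ n := by exact_mod_cast hn
    linarith
  have hsum : ∑' p : ℤ × ℤ, (((p.1 : ℂ) + (p.2 : ℂ) * Complex.I) ^ (4 * n))⁻¹ =
      (ω : ℂ) ^ (4 * n) * L.G (4 * n) := by
    rw [PeriodPair.G, ← e.tsum_eq (fun l : L.lattice => ((l : ℂ) ^ (4 * n))⁻¹), ← tsum_mul_left]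
    refine tsum_congr fun p => ?_
    show _ = (ω : ℂ) ^ (4 * n) * (((ω : ℂ) * _) ^ (4 * n))⁻¹
    rw [mul_pow, mul_inv, ← mul_assoc, mul_inv_cancel₀ (pow_ne_zero _ hωc), one_mul]
  rw [hsum, hurwitzNumber, bhNum, ← hval', Complex.ofReal_mul]
  push_cast
  rw [hG]
  have hf : ((4 * n)! : ℂ) ≠ 0 := Nat.cast_ne_zero.2 (Nat.factorial_ne_zero _)
  field_simp
  ring

end FA.HurwitzStaudt

end
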