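import Fermat.Agent.HurwitzStaudt.Elliptic
import Fermat.Agent.Root.SummaryGaussBinomial

/-!
# The Hurwitz numbers at an odd prime

In `z / sl z = ∑ e_j sl^(4j) / (4j+1)` only the term with `4j + 1 = p` can be fractional at `p`,
and `(sl^(p-1))^(k)` repeats with period `p - 1` up to the factor `e`.
-/

set_option autoImplicit false
set_option linter.style.haveILetI false

noncomputable section

namespace FA.HurwitzStaudt

open PowerSeries Finset
open scoped Nat

local notation "D" => d⁄dX ℚ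

/-- An odd number that is not prime divides the factorial of its predecessor. -/
theorem dvd_factorial_pred {n : ℕ} (hodd : Odd n) (hp : ¬ n.Prime) : n ∣ (n - 1)! := by
  rcases eq_or_ne n 1 with rfl | h1
  · exact one_dvd _
  have h0 : n ≠ 0 := by rintro rfl; exact absurd hodd (by decide)
  obtain ⟨a, b, ha, hb, hab⟩ : ∃ a b, 1 < a ∧ a ≤ b ∧ a * b = n := by
    obtain ⟨b, hb⟩ := Nat.minFac_dvd n
    have hpr := Nat.minFac_prime h1
    have hb1 : b ≠ 1 := fun e => hp (by rw [hb, e, mul_one]; exact hpr)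
    have hb0 : b ≠ 0 := fun e => h0 (by rw [hb, e, mul_zero])
    exact ⟨n.minFac, b, hpr.one_lt,
      Nat.minFac_le_of_dvd (by omega) ⟨n.minFac, by rw [mul_comm, ← hb]⟩, hb.symm⟩
  rcases hb.lt_or_eq with hlt | rfl
  · have h2 : a * b ∣ b ! := by
      rw [← Nat.mul_factorial_pred (by omega : b ≠ 0), mul_comm b]
      exact mul_dvd_mul_right (Nat.dvd_factorial (by omega) (by omega)) b
    refine hab ▸ h2.trans (Nat.factorial_dvd_factorial ?_)
    have : 2 * b ≤ a * b := Nat.mul_le_mul_right b ha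
    omega
  · have ha3 : 3 ≤ a := by
      by_contra h
      obtain rfl : a = 2 := by omega
      subst hab
      exact absurd hodd (by decide)
    have h2 : a * a ∣ (2 * a)! := by
      rw [← Nat.mul_factorial_pred (by omega : 2 * a ≠ 0), mul_assoc]
      exact dvd_mul_of_dvd_right (mul_dvd_mul_left a (Nat.dvd_factorial (by omega) (by omega))) 2
    refine hab ▸ h2.trans (Nat.factorial_dvd_factorial ?_)
    have : 3 * a ≤ a * a := Nat.mul_le_mul_right a ha3
    omega

variable {p : ℕ} [hp : Fact p.Prime]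

theorem not_prime_dvd_two_pow (hodd : p ≠ 2) (k : ℕ) : ¬ p ∣ 2 ^ k := fun h =>
  hodd ((Nat.prime_dvd_prime_iff_eq hp.out Nat.prime_two).1 (hp.out.dvd_of_dvd_pow h))

theorem bino_mem (hodd : p ≠ 2) (j : ℕ) : bino j ∈ pInt p := by
  rw [bino, show (4 : ℚ) ^ j = ((2 ^ (2 * j) : ℕ) : ℚ) by push_cast; rw [pow_mul]; norm_num]
  exact natCast_div_mem _ (not_prime_dvd_two_pow hodd _)

theorem natFactorial_div_mem {n : ℕ} (hodd : Odd n) (hne : n ≠ p) :
    ((n - 1)! : ℚ) / n ∈ pInt p := by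
  by_cases hn : n.Prime
  · exact natCast_div_mem _ fun h => hne ((Nat.prime_dvd_prime_iff_eq hp.out hn).1 h).symm
  · obtain ⟨d, hd⟩ := dvd_factorial_pred hodd hn
    rw [hd, Nat.cast_mul, mul_div_cancel_left₀ _
      (Nat.cast_ne_zero.2 (by rintro rfl; exact absurd hodd (by decide)))]
    exact natCast_mem _ d

theorem hval_sum {ι : Type*} (s : Finset ι) (f : ι → ℚ⟦X⟧) (k : ℕ) :
    hval (∑ i ∈ s, f i) k = ∑ i ∈ s, hval (f i) k := by
  simp [hval, Finset.mul_sum]

/-- `z / sl z` in powers of `sl z`. -/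
theorem hval_invSl {N k : ℕ} (hk : k < 4 * N) :
    hval invSl k = ∑ j ∈ range N, bino j / (4 * j + 1) * hval (sl ^ (4 * j)) k := by
  set W := ∑ j ∈ range N, C (bino j / (4 * j + 1)) * sl ^ (4 * j) with hW
  have hS : slLog N = sl * W := by
    rw [slLog, hW, mul_sum]
    exact sum_congr rfl fun j _ => by ring
  obtain ⟨G, hG⟩ := X_pow_dvd_slLog_sub N
  have h1 : X * (W - invSl) = X * (invSl * (X ^ (4 * N) * G)) := by
    have hG' : sl * W - X = X ^ (4 * N) * X * G := by rw [← hS, hG, pow_succ]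
    linear_combination invSl * hG' - W * sl_mul_invSl
  have h2 : W - invSl = X ^ (4 * N) * (invSl * G) := by
    rw [mul_left_cancel₀ X_ne_zero h1]; ring
  have h3 := hval_eq_zero_of_X_pow_dvd (k := k) ⟨_, h2⟩ hk
  rw [hval_sub, sub_eq_zero] at h3
  rw [← h3, hW, hval_sum]
  exact sum_congr rfl fun j _ => hval_C_mul _ _ _

theorem term_mem (hodd : p ≠ 2) {j : ℕ} (hj : 4 * j + 1 ≠ p) (k : ℕ) :
    bino j / (4 * j + 1) * hval (sl ^ (4 * j)) k ∈ pInt p := by
  obtain ⟨B, hB, e⟩ := hval_sl_pow_mem (pInt p) (4 * j) k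
  rw [e, show bino j / (4 * j + 1) * (((4 * j)! : ℚ) * B) =
    bino j * (((4 * j + 1 - 1)! : ℚ) / ((4 * j + 1 : ℕ) : ℚ)) * B by
      rw [Nat.add_sub_cancel]; push_cast; ring]
  exact mul_mem (mul_mem (bino_mem hodd j)
    (natFactorial_div_mem ⟨2 * j, by ring⟩ hj)) hB

/-- If no `4j + 1` equals `p` the values are integral at `p`. -/
theorem hval_invSl_mem (hodd : p ≠ 2) (hp4 : p % 4 ≠ 1) (k : ℕ) : hval invSl k ∈ pInt p := by
  rw [hval_invSl (N := k + 1) (by omega)]
  exact sum_mem fun j _ => term_mem hodd (by omega) k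

theorem hval_invSl_sub_mem {m : ℕ} (hm : p = 4 * m + 1) (k : ℕ) :
    hval invSl k - bino m / p * hval (sl ^ (p - 1)) k ∈ pInt p := by
  have hodd : p ≠ 2 := by omega
  rw [hval_invSl (N := k + m + 1) (by omega), ← add_sum_erase _ _ (mem_range.2 (by omega) : m ∈ _),
    show 4 * m = p - 1 by omega, show (4 * (m : ℚ) + 1) = (p : ℚ) by rw [hm]; push_cast; ring,
    add_sub_cancel_left]
  exact sum_mem fun j hj => term_mem hodd (fun e => (mem_erase.1 hj).1 (by omega)) k

/-- The value `sl^(p)(0)` is the binomial coefficient of the logarithm. -/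
theorem hval_sl_prime {m : ℕ} (hm : p = 4 * m + 1) : ModP p (hval sl p) (bino m) := by
  have hodd : p ≠ 2 := by omega
  have hm0 : 0 < m := by have := hp.out.two_le; omega
  have hp0 : (p : ℚ) ≠ 0 := Nat.cast_ne_zero.2 hp.out.ne_zero
  have h := hval_eq_zero_of_X_pow_dvd (k := p) (X_pow_dvd_slLog_sub (m + 1)) (by omega)
  rw [hval_sub, show hval (X : ℚ⟦X⟧) p = 0 by
      simp [hval, coeff_X, show p ≠ 1 from hp.out.ne_one], sub_zero,
    slLog, hval_sum, sum_range_succ] at h
  simp only [hval_C_mul] at h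
  rw [← add_sum_erase _ _ (mem_range.2 hm0 : (0 : ℕ) ∈ range m), ← hm, hval_sl_pow_self,
    show (4 * (m : ℚ) + 1) = (p : ℚ) by rw [hm]; push_cast; ring] at h
  simp only [zero_add, pow_one, Nat.cast_zero, mul_zero] at h
  rw [show bino 0 = 1 by norm_num [bino], div_one, one_mul,
    ← Nat.mul_factorial_pred hp.out.ne_zero, Nat.cast_mul] at h
  have hmid : ∀ j ∈ (range m).erase 0,
      ModP p (bino j / (4 * j + 1) * hval (sl ^ (4 * j + 1)) p) 0 := by
    intro j hj
    obtain ⟨hj0, hj'⟩ := mem_erase.1 hj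
    rw [mem_range] at hj'
    have hd : ¬ p ∣ 4 * j + 1 := fun h => by have := Nat.le_of_dvd (by omega) h; omega
    have h0 : ModP p (hval (sl ^ (4 * j + 1)) p) 0 := by
      have := iterate_prime_sl_pow hodd (4 * j + 1) 0
      rw [hval_iterate, zero_add, hval_C_mul, hval_derivative, zero_add,
        hval_sl_pow_eq_zero (show 1 < 4 * j + 1 by omega), mul_zero] at this
      exact this
    have := h0.mul_left (c := bino j / (4 * j + 1)) (by
      rw [div_eq_mul_inv, show (4 * (j : ℚ) + 1) = ((4 * j + 1 : ℕ) : ℚ) by push_cast; ring]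
      exact mul_mem (bino_mem hodd j) (inv_natCast_mem hd))
    rwa [mul_zero] at this
  have hsum : ModP p (∑ j ∈ (range m).erase 0,
      bino j / (4 * j + 1) * hval (sl ^ (4 * j + 1)) p) 0 := by
    rw [ModP, sub_zero, sum_div]
    exact sum_mem fun j hj => by simpa [ModP] using hmid j hj
  have hwil : ModP p ((p - 1)! : ℚ) (-1 : ℚ) := by
    have h1 := (modP_intCast_iff (p := p) (a := ((p - 1)! : ℕ)) (b := -1)).2
      (by push_cast; exact ZMod.wilsons_lemma p)
    push_cast at h1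
    exact h1
  have e : hval sl p = -(∑ j ∈ (range m).erase 0,
      bino j / (4 * j + 1) * hval (sl ^ (4 * j + 1)) p) + -(bino m * ((p - 1)! : ℚ)) := by
    field_simp at h ⊢
    linear_combination h
  rw [e]
  have := hsum.neg.add (hwil.mul_left (bino_mem hodd m)).neg
  simpa using this

/-- The derivatives of `sl^(p-1)` at the origin. -/
theorem hval_sl_pow_pred {m : ℕ} (hm : p = 4 * m + 1) (j : ℕ) :
    ModP p (hval (sl ^ (p - 1)) ((j + 1) * (p - 1))) (-(bino m) ^ j) ∧
    ∀ r, 1 ≤ r → r < p - 1 → ModP p (hval (sl ^ (p - 1)) (j * (p - 1) + r)) 0 := by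
  have hodd : p ≠ 2 := by omega
  have hstep : ∀ i, ModP p (hval (sl ^ (p - 1)) (i + p))
      (hval sl p * hval (sl ^ (p - 1)) (i + 1)) := fun i => by
    have := iterate_prime_sl_pow hodd (p - 1) i
    rwa [hval_iterate, hval_C_mul, hval_derivative] at this
  have hc : hval sl p ∈ pInt p := isHurwitz_sl _ p
  induction j with
  | zero =>
    refine ⟨?_, fun r _ h2 => ?_⟩
    · rw [zero_add, one_mul, hval_sl_pow_self, pow_zero]
      have h1 := (modP_intCast_iff (p := p) (a := ((p - 1)! : ℕ)) (b := -1)).2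
        (by push_cast; exact ZMod.wilsons_lemma p)
      push_cast at h1
      exact h1
    · rw [Nat.zero_mul, zero_add, hval_sl_pow_eq_zero h2]
      exact ModP.refl 0
  | succ j ih =>
    refine ⟨?_, fun r h1 h2 => ?_⟩
    · rw [show (j + 1 + 1) * (p - 1) = ((j + 1) * (p - 1) - 1) + p by
        have h3 : p - 1 ≤ (j + 1) * (p - 1) := Nat.le_mul_of_pos_left _ j.succ_pos
        rw [show (j + 1 + 1) * (p - 1) = (j + 1) * (p - 1) + (p - 1) by ring]
        have := hp.out.two_le
        generalize (j + 1) * (p - 1) = P at h3 ⊢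
        omega]
      refine (hstep _).trans ?_
      rw [show (j + 1) * (p - 1) - 1 + 1 = (j + 1) * (p - 1) by
        have h3 : p - 1 ≤ (j + 1) * (p - 1) := Nat.le_mul_of_pos_left _ j.succ_pos
        have := hp.out.two_le
        generalize (j + 1) * (p - 1) = P at h3 ⊢
        omega, pow_succ, show -((bino m) ^ j * bino m) = bino m * -(bino m) ^ j by ring]
      exact (hval_sl_prime hm).mul ih.1 hc
        (neg_mem (pow_mem (bino_mem hodd m) j))
    · rw [show (j + 1) * (p - 1) + r = (j * (p - 1) + r - 1) + p by rw [add_mul, one_mul]; omega]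
      refine (hstep _).trans ?_
      rw [show j * (p - 1) + r - 1 + 1 = j * (p - 1) + r by omega]
      simpa using (ih.2 r h1 h2).mul_left hc

theorem hval_invSl_mem_of_not_dvd {m : ℕ} (hm : p = 4 * m + 1) {k : ℕ} (hk : ¬ p - 1 ∣ k) :
    hval invSl k ∈ pInt p := by
  have h := (hval_sl_pow_pred hm (k / (p - 1))).2 (k % (p - 1))
    (Nat.pos_of_ne_zero fun e => hk (Nat.dvd_of_mod_eq_zero e))
    (Nat.mod_lt _ (by have := hp.out.two_le; omega))
  rw [Nat.div_add_mod', ModP, sub_zero] at h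
  have := add_mem (hval_invSl_sub_mem hm k) (mul_mem (bino_mem (by omega : p ≠ 2) m) h)
  rwa [show hval invSl k - bino m / p * hval (sl ^ (p - 1)) k +
    bino m * (hval (sl ^ (p - 1)) k / p) = hval invSl k by ring] at this

theorem hval_invSl_add_mem {m : ℕ} (hm : p = 4 * m + 1) (j : ℕ) :
    hval invSl ((j + 1) * (p - 1)) + bino m ^ (j + 1) / p ∈ pInt p := by
  have h : (hval (sl ^ (p - 1)) ((j + 1) * (p - 1)) - -(bino m) ^ j) / p ∈ pInt p :=
    (hval_sl_pow_pred hm j).1
  have := add_mem (hval_invSl_sub_mem hm ((j + 1) * (p - 1)))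
    (mul_mem (bino_mem (by omega : p ≠ 2) m) h)
  rwa [show hval invSl ((j + 1) * (p - 1)) - bino m / p * hval (sl ^ (p - 1)) ((j + 1) * (p - 1)) +
    bino m * ((hval (sl ^ (p - 1)) ((j + 1) * (p - 1)) - -(bino m) ^ j) / p) =
      hval invSl ((j + 1) * (p - 1)) + bino m ^ (j + 1) / p by rw [pow_succ]; ring] at this

theorem bhNum_mem_of {n : ℕ} (hn : 1 ≤ n) (h : hval invSl (4 * n) ∈ pInt p) :
    bhNum n ∈ pInt p := by
  have hq : ((-4 : ℚ)) ^ n ∈ pInt p := pow_mem (neg_mem (ofNat_mem _ 4)) n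
  have h1 : ((-4 : ℚ) ^ n - 2) * bhNum n ∈ pInt p := invSl_bhNum n ▸ mul_mem hq h
  have h2 : (1 - (-4 : ℚ) ^ n) * bhNum n ∈ pInt p := by
    have := mul_mem (natCast_mem (pInt p) (4 * n))
      (bhNum_wpTwist hn ▸ ((isHurwitz_sl (pInt p)).pow 2) (4 * n - 2) :
        (1 - (-4 : ℚ) ^ n) * (bhNum n / (4 * n)) ∈ pInt p)
    convert this using 1
    have : (n : ℚ) ≠ 0 := Nat.cast_ne_zero.2 (by omega)
    push_cast
    field_simp
  have := neg_mem (add_mem h1 h2)
  convert this using 1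
  ring

theorem hurwitzNumber_mem {n : ℕ} (hn : 1 ≤ n) (hodd : p ≠ 2)
    (hex : ¬ (p % 4 = 1 ∧ p - 1 ∣ 4 * n)) : hurwitzNumber n ∈ pInt p := by
  have hb : bhNum n ∈ pInt p := by
    refine bhNum_mem_of hn ?_
    by_cases h4 : p % 4 = 1
    · exact hval_invSl_mem_of_not_dvd (m := p / 4) (by omega) fun h => hex ⟨h4, h⟩
    · exact hval_invSl_mem hodd h4 _
  rw [hurwitzNumber, div_eq_mul_inv,
    show (2 : ℚ) ^ (4 * n) = ((2 ^ (4 * n) : ℕ) : ℚ) by push_cast; rfl]
  exact mul_mem hb (inv_natCast_mem (not_prime_dvd_two_pow hodd _))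

/-- Gauss's congruence for the primary representation. -/
theorem bino_modP_primary {m : ℕ} (hm : p = 4 * m + 1) {a b : ℤ}
    (hab : (p : ℤ) = a ^ 2 + b ^ 2) (hb : b % 2 = 0) (hprim : (a - 1 + b) % 4 = 0) :
    ModP p (bino m) (2 * a) := by
  have hodd : p ≠ 2 := by omega
  have hp4 : p % 4 = 1 := by omega
  -- the parity of `b / 2` is that of `m`
  have hpar : (-1 : ℤ) ^ m * a % 4 = 1 := by
    obtain ⟨c, rfl⟩ : (2 : ℤ) ∣ b := Int.dvd_of_emod_eq_zero hb
    obtain ⟨d, rfl⟩ : ∃ d, a = 2 * d + 1 := ⟨a / 2, by omega⟩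
    have hm' : (m : ℤ) = d * (d + 1) + c ^ 2 := by
      have : (p : ℤ) = 4 * m + 1 := by exact_mod_cast hm
      refine mul_left_cancel₀ (four_ne_zero : (4 : ℤ) ≠ 0) ?_
      linear_combination hab - this
    obtain ⟨r, hr⟩ := Int.even_mul_succ_self d
    have hc : c ^ 2 % 2 = c % 2 := by
      rw [pow_two, Int.mul_emod]
      rcases Int.emod_two_eq c with e | e <;> rw [e] <;> rfl
    rcases Nat.even_or_odd m with he | ho
    · have : (m : ℤ) % 2 = 0 := by exact_mod_cast Nat.even_iff.mp he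
      rw [he.neg_one_pow, one_mul]
      omega
    · have : (m : ℤ) % 2 = 1 := by exact_mod_cast Nat.odd_iff.mp ho
      rw [ho.neg_one_pow]
      omega
  have hg := (FA.Summary.gauss_binomial p ((-1) ^ m * a) b
    (by rw [hab, mul_pow, ← pow_mul, mul_comm m, pow_mul]; norm_num) hpar hp4).1
  rw [show (p - 1) / 2 = 2 * m by omega, show (p - 1) / 4 = m by omega] at hg
  have h2 : ((2 : ZMod p)) ^ (2 * m) = (-1) ^ m := by
    have h := legendreSym.eq_pow p 2
    rw [legendreSym.at_two hodd, show p / 2 = 2 * m by omega] at h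
    push_cast at h
    rw [← h, ZMod.χ₈_nat_eq_if_mod_eight, if_neg (by omega)]
    rcases Nat.even_or_odd m with he | ho
    · rw [he.neg_one_pow, if_pos (by have := Nat.even_iff.mp he; omega)]; simp
    · rw [ho.neg_one_pow, if_neg (by have := Nat.odd_iff.mp ho; omega)]; simp
  have key : ModP p (((2 * m).choose m : ℕ) : ℚ) ((4 : ℚ) ^ m * (2 * a)) := by
    have := (modP_intCast_iff (p := p) (a := (((2 * m).choose m : ℕ) : ℤ))
      (b := 4 ^ m * (2 * a))).2 (by
        push_cast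
        rw [hg, show (4 : ZMod p) = 2 ^ 2 by norm_num, ← pow_mul, h2]
        push_cast
        ring)
    push_cast at this
    exact this
  have h4 : ((4 : ℚ) ^ m)⁻¹ ∈ pInt p := by
    rw [show (4 : ℚ) ^ m = ((2 ^ (2 * m) : ℕ) : ℚ) by push_cast; rw [pow_mul]; norm_num]
    exact inv_natCast_mem (not_prime_dvd_two_pow hodd _)
  have := key.mul_left h4
  rwa [← mul_assoc, inv_mul_cancel₀ (pow_ne_zero m (by norm_num)), one_mul, mul_comm,
    ← div_eq_mul_inv] at this

/-- **The fractional part at an exceptional prime.** -/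
theorem hurwitzNumber_sub_mem {n j : ℕ} (hn : 1 ≤ n) {m : ℕ} (hm : p = 4 * m + 1)
    (hj : 4 * n = j * (p - 1)) {a b : ℤ} (hab : (p : ℤ) = a ^ 2 + b ^ 2) (hb : b % 2 = 0)
    (hprim : (a - 1 + b) % 4 = 0) :
    hurwitzNumber n - (2 * a : ℚ) ^ j / p ∈ pInt p := by
  have hodd : p ≠ 2 := by omega
  obtain ⟨i, rfl⟩ : ∃ i, j = i + 1 := ⟨j - 1, by
    have : j ≠ 0 := fun e => by rw [e, zero_mul] at hj; omega
    omega⟩
  set e := bino m
  have he : ModP p e (2 * a) := bino_modP_primary hm hab hb hprim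
  have hβ : hval invSl (4 * n) + e ^ (i + 1) / p ∈ pInt p := hj ▸ hval_invSl_add_mem hm i
  have hp2 : (2 : ZMod p) ≠ 0 := fun e2 => by
    have := Nat.le_of_dvd two_pos ((ZMod.natCast_eq_zero_iff 2 p).1 (by simpa using e2))
    have := hp.out.two_le
    omega
  -- `(-4)^n ≡ 1` and `2^(4n) ≡ 1`
  have hq : ModP p ((-4 : ℚ) ^ n) 1 := by
    have h := (modP_intCast_iff (p := p) (a := (-4) ^ n) (b := 1)).2 (by
      obtain ⟨s, hs⟩ := ZMod.exists_sq_eq_neg_one_iff.2 (by omega : p % 4 ≠ 3)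
      have e4 : ((1 + s) ^ 4 : ZMod p) = -4 := by
        linear_combination -(s ^ 2 + 4 * s + 5) * hs
      have hne : (1 + s : ZMod p) ≠ 0 := fun e0 => by
        rw [e0, zero_pow (by norm_num), eq_comm, neg_eq_zero,
          show (4 : ZMod p) = 2 ^ 2 by norm_num] at e4
        exact hp2 (pow_eq_zero_iff two_ne_zero |>.1 e4)
      push_cast
      rw [← e4, ← pow_mul, hj, mul_comm, pow_mul, ZMod.pow_card_sub_one_eq_one hne, one_pow])
    push_cast at h
    exact h
  have ht : ModP p ((2 : ℚ) ^ (4 * n)) 1 := by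
    have h := (modP_intCast_iff (p := p) (a := 2 ^ (4 * n)) (b := 1)).2 (by
      push_cast
      rw [hj, mul_comm, pow_mul, ZMod.pow_card_sub_one_eq_one hp2, one_pow])
    push_cast at h
    exact h
  set q := (-4 : ℚ) ^ n
  have hqm : q ∈ pInt p := pow_mem (neg_mem (ofNat_mem _ 4)) n
  set B := bhNum n
  -- multiply by `p`
  have hpm : (p : ℚ) ∈ pInt p := natCast_mem _ p
  have hp0 : (p : ℚ) ≠ 0 := Nat.cast_ne_zero.2 hp.out.ne_zero
  have h1 : ((q - 2) * B * p + q * e ^ (i + 1)) / p ∈ pInt p := by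
    have := mul_mem hqm hβ
    convert this using 1
    rw [mul_add, invSl_bhNum]
    field_simp
    ring
  have hqn : ¬ (q - 2) = 0 := fun e0 => by
    have h' : ModP p q 1 := hq
    rw [ModP, show q - 1 = 1 by linarith, one_div] at h'
    exact inv_prime_not_mem h'
  have hinv : (q - 2)⁻¹ ∈ pInt p := by
    obtain ⟨z, hz⟩ : ∃ z : ℤ, q - 2 = z := ⟨(-4) ^ n - 2, by push_cast; rfl⟩
    have hzp : ¬ (p : ℤ) ∣ z := fun hd => by
      have h0 : ((q - 2) - 0) / p ∈ pInt p := by
        obtain ⟨w, rfl⟩ := hd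
        rw [hz, sub_zero, Int.cast_mul, Int.cast_natCast, mul_div_cancel_left₀ _ hp0]
        exact intCast_mem _ w
      have h' : (q - 1) / p ∈ pInt p := hq
      have := sub_mem h' h0
      rw [show (q - 1) / (p : ℚ) - (q - 2 - 0) / p = (p : ℚ)⁻¹ by ring] at this
      exact inv_prime_not_mem this
    rw [hz, mem_pInt, Rat.inv_intCast_den]
    split_ifs with h0
    · exact fun h' => hp.out.ne_one (Nat.dvd_one.1 h')
    · exact fun h' => hzp (Int.natCast_dvd.2 h')
  have hB : (B * p - e ^ (i + 1)) / p ∈ pInt p := by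
    have hem : e ^ (i + 1) ∈ pInt p := pow_mem (bino_mem hodd m) _
    have h2 := mul_mem hinv (sub_mem h1 (mul_mem (mul_mem (ofNat_mem (pInt p) 2) hem)
      (show (q - 1) / p ∈ pInt p from hq)))
    convert h2 using 1
    field_simp
    ring
  have htinv : ((2 : ℚ) ^ (4 * n))⁻¹ ∈ pInt p := by
    rw [show (2 : ℚ) ^ (4 * n) = ((2 ^ (4 * n) : ℕ) : ℚ) by push_cast; rfl]
    exact inv_natCast_mem (not_prime_dvd_two_pow hodd _)
  have hH : (hurwitzNumber n * p - e ^ (i + 1)) / p ∈ pInt p := by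
    have h2 := mul_mem htinv (sub_mem hB (mul_mem (pow_mem (bino_mem hodd m) (i + 1))
      (show ((2 : ℚ) ^ (4 * n) - 1) / p ∈ pInt p from ht)))
    convert h2 using 1
    rw [hurwitzNumber]
    field_simp
    ring
  have h5 := add_mem hH (he.pow (bino_mem hodd m) (i + 1))
  convert h5 using 1
  field_simp
  ring

end FA.HurwitzStaudt

end
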