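import Mathlib

/-!
# Hurwitz series

A power series is integral in the sense of Hurwitz over a ring `A` if `n!` times its `n`-th
coefficient lies in `A`. Such series form a ring closed under inversion of units with constant
term one and under integration.
-/

set_option autoImplicit false

noncomputable section

namespace FA.HurwitzStaudt

open PowerSeries Finset
open scoped Nat

/-- `k!` times the `k`-th coefficient: the `k`-th derivative at the origin. -/
def hval (f : ℚ⟦X⟧) (k : ℕ) : ℚ := (k ! : ℚ) * coeff k f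

theorem hval_add (f g : ℚ⟦X⟧) (k : ℕ) : hval (f + g) k = hval f k + hval g k := by
  simp [hval, mul_add]

theorem hval_sub (f g : ℚ⟦X⟧) (k : ℕ) : hval (f - g) k = hval f k - hval g k := by
  simp [hval, mul_sub]

theorem hval_C_mul (c : ℚ) (f : ℚ⟦X⟧) (k : ℕ) : hval (C c * f) k = c * hval f k := by
  simp [hval, coeff_C_mul]; ring

theorem hval_mul (f g : ℚ⟦X⟧) (k : ℕ) :
    hval (f * g) k = ∑ i ∈ range (k + 1), (k.choose i : ℚ) * hval f i * hval g (k - i) := by
  rw [hval, coeff_mul, Finset.mul_sum, Finset.Nat.sum_antidiagonal_eq_sum_range_succ_mk]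
  refine sum_congr rfl fun i hi => ?_
  simp only [hval]
  rw [← Nat.choose_mul_factorial_mul_factorial (Nat.lt_succ_iff.1 (mem_range.1 hi))]
  push_cast
  ring

theorem hval_derivative (f : ℚ⟦X⟧) (k : ℕ) : hval (d⁄dX ℚ f) k = hval f (k + 1) := by
  simp only [hval, coeff_derivative, Nat.factorial_succ]
  push_cast
  ring

theorem hval_iterate (f : ℚ⟦X⟧) (n k : ℕ) : hval ((d⁄dX ℚ)^[n] f) k = hval f (k + n) := by
  induction n generalizing k with
  | zero => rfl
  | succ n ih => rw [Function.iterate_succ_apply', hval_derivative, ih]; ring_nf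

theorem hval_zero (f : ℚ⟦X⟧) : hval f 0 = constantCoeff f := by
  simp [hval]

/-- Leibniz's rule. -/
theorem iterate_derivative_mul (f g : ℚ⟦X⟧) (n : ℕ) :
    (d⁄dX ℚ)^[n] (f * g) = ∑ i ∈ range (n + 1),
      (n.choose i : ℚ⟦X⟧) * ((d⁄dX ℚ)^[n - i] f * (d⁄dX ℚ)^[i] g) := by
  induction n with
  | zero => simp
  | succ n ih =>
    rw [sum_choose_succ_mul (fun i j => (d⁄dX ℚ)^[j] f * (d⁄dX ℚ)^[i] g) n,
      Function.iterate_succ_apply', ih, map_sum, ← sum_add_distrib]
    refine sum_congr rfl fun i hi => ?_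
    rw [Derivation.leibniz, Derivation.map_natCast, smul_zero, add_zero, Derivation.leibniz,
      smul_eq_mul, smul_eq_mul, smul_eq_mul, Function.iterate_succ_apply',
      show n + 1 - i = n - i + 1 from by have := mem_range.1 hi; omega,
      Function.iterate_succ_apply']
    ring

/-- Integrality in the sense of Hurwitz. -/
def IsHurwitz (A : Subring ℚ) (f : ℚ⟦X⟧) : Prop := ∀ k, hval f k ∈ A

variable {A : Subring ℚ}

theorem IsHurwitz.add {f g : ℚ⟦X⟧} (hf : IsHurwitz A f) (hg : IsHurwitz A g) :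
    IsHurwitz A (f + g) := fun k => by
  rw [hval_add]; exact add_mem (hf k) (hg k)

theorem IsHurwitz.sub {f g : ℚ⟦X⟧} (hf : IsHurwitz A f) (hg : IsHurwitz A g) :
    IsHurwitz A (f - g) := fun k => by
  rw [hval_sub]; exact sub_mem (hf k) (hg k)

theorem IsHurwitz.mul {f g : ℚ⟦X⟧} (hf : IsHurwitz A f) (hg : IsHurwitz A g) :
    IsHurwitz A (f * g) := fun k => by
  rw [hval_mul]
  exact sum_mem fun i _ => mul_mem (mul_mem (natCast_mem A _) (hf _)) (hg _)

theorem isHurwitz_C {c : ℚ} (hc : c ∈ A) : IsHurwitz A (C c) := fun k => by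
  rcases k with _ | k
  · simpa [hval_zero] using hc
  · simp [hval]

theorem IsHurwitz.pow {f : ℚ⟦X⟧} (hf : IsHurwitz A f) (n : ℕ) : IsHurwitz A (f ^ n) := by
  induction n with
  | zero => simpa using isHurwitz_C A.one_mem
  | succ n ih => rw [pow_succ]; exact ih.mul hf

theorem IsHurwitz.iterate {f : ℚ⟦X⟧} (hf : IsHurwitz A f) (n : ℕ) :
    IsHurwitz A ((d⁄dX ℚ)^[n] f) := fun k => by
  rw [hval_iterate]; exact hf _

theorem IsHurwitz.derivative {f : ℚ⟦X⟧} (hf : IsHurwitz A f) : IsHurwitz A (d⁄dX ℚ f) :=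
  hf.iterate 1

theorem isHurwitz_of_derivative {f : ℚ⟦X⟧} (h0 : constantCoeff f ∈ A)
    (hf : IsHurwitz A (d⁄dX ℚ f)) : IsHurwitz A f := fun k => by
  rcases k with _ | k
  · rwa [hval_zero]
  · rw [← hval_derivative]; exact hf k

/-- A series with constant term one has an integral inverse. -/
theorem IsHurwitz.inv {f : ℚ⟦X⟧} (hf : IsHurwitz A f) (h0 : constantCoeff f = 1) :
    IsHurwitz A f⁻¹ := fun k => by
  induction k using Nat.strong_induction_on with
  | _ k ih =>
    rcases k with _ | k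
    · rw [hval_zero, constantCoeff_inv, h0, inv_one]; exact A.one_mem
    have h := hval_mul f⁻¹ f (k + 1)
    rw [PowerSeries.inv_mul_cancel f (by rw [h0]; exact one_ne_zero), sum_range_succ,
      show hval (1 : ℚ⟦X⟧) (k + 1) = 0 by simp [hval], Nat.choose_self, Nat.sub_self, hval_zero,
      h0, Nat.cast_one, one_mul, mul_one] at h
    rw [eq_neg_of_add_eq_zero_right h.symm]
    exact neg_mem (sum_mem fun i hi =>
      mul_mem (mul_mem (natCast_mem A _) (ih i (mem_range.1 hi))) (hf _))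

/-- The rational numbers integral at `p`. -/
def pInt (p : ℕ) [hp : Fact p.Prime] : Subring ℚ where
  carrier := {q | ¬ p ∣ q.den}
  mul_mem' {a b} ha hb h := (hp.out.dvd_mul.1 (h.trans (Rat.mul_den_dvd a b))).elim ha hb
  one_mem' h := hp.out.ne_one (Nat.dvd_one.1 (by simpa using h))
  add_mem' {a b} ha hb h := (hp.out.dvd_mul.1 (h.trans (Rat.add_den_dvd a b))).elim ha hb
  zero_mem' h := hp.out.ne_one (Nat.dvd_one.1 (by simpa using h))
  neg_mem' {a} ha := by simpa using ha

variable {p : ℕ} [hp : Fact p.Prime]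

theorem mem_pInt {q : ℚ} : q ∈ pInt p ↔ ¬ p ∣ q.den := Iff.rfl

theorem inv_natCast_mem {d : ℕ} (hd : ¬ p ∣ d) : ((d : ℚ))⁻¹ ∈ pInt p := by
  rw [mem_pInt, Rat.inv_natCast_den]
  split_ifs with h
  · exact fun h' => hp.out.ne_one (Nat.dvd_one.1 h')
  · exact hd

theorem natCast_div_mem (a : ℕ) {d : ℕ} (hd : ¬ p ∣ d) : (a : ℚ) / d ∈ pInt p := by
  rw [div_eq_mul_inv]
  exact mul_mem (natCast_mem _ a) (inv_natCast_mem hd)

theorem inv_prime_not_mem : ((p : ℚ))⁻¹ ∉ pInt p := fun h => h (by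
  rw [Rat.inv_natCast_den, if_neg hp.out.ne_zero])

/-- `x ≡ y` modulo `p`. -/
def ModP (p : ℕ) [Fact p.Prime] (x y : ℚ) : Prop := (x - y) / p ∈ pInt p

theorem ModP.refl (x : ℚ) : ModP p x x := by
  simp [ModP]

theorem ModP.symm {x y : ℚ} (h : ModP p x y) : ModP p y x := by
  rw [ModP, show (y - x) / (p : ℚ) = -((x - y) / p) by ring]; exact neg_mem h

theorem ModP.trans {x y z : ℚ} (h : ModP p x y) (h' : ModP p y z) : ModP p x z := by
  rw [ModP, show (x - z) / (p : ℚ) = (x - y) / p + (y - z) / p by ring]; exact add_mem h h'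

theorem ModP.add {x y z w : ℚ} (h : ModP p x y) (h' : ModP p z w) : ModP p (x + z) (y + w) := by
  rw [ModP, show (x + z - (y + w)) / (p : ℚ) = (x - y) / p + (z - w) / p by ring]
  exact add_mem h h'

theorem ModP.neg {x y : ℚ} (h : ModP p x y) : ModP p (-x) (-y) := by
  rw [ModP, show (-x - -y) / (p : ℚ) = -((x - y) / p) by ring]; exact neg_mem h

theorem ModP.mul_left {x y : ℚ} (h : ModP p x y) {c : ℚ} (hc : c ∈ pInt p) :
    ModP p (c * x) (c * y) := by
  rw [ModP, show (c * x - c * y) / (p : ℚ) = c * ((x - y) / p) by ring]; exact mul_mem hc h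

theorem ModP.mem_iff {x y : ℚ} (h : ModP p x y) : x ∈ pInt p ↔ y ∈ pInt p := by
  have hd : x - y ∈ pInt p := by
    have := mul_mem (natCast_mem (pInt p) p) h
    rwa [mul_div_cancel₀ _ (Nat.cast_ne_zero.2 hp.out.ne_zero)] at this
  exact ⟨fun hx => by simpa using sub_mem hx hd, fun hy => by simpa using add_mem hy hd⟩

theorem ModP.mul {x y z w : ℚ} (h : ModP p x y) (h' : ModP p z w) (hx : x ∈ pInt p)
    (hw : w ∈ pInt p) : ModP p (x * z) (y * w) := by
  refine (h'.mul_left hx).trans ?_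
  rw [mul_comm x, mul_comm y]
  exact h.mul_left hw

theorem ModP.pow {x y : ℚ} (h : ModP p x y) (hx : x ∈ pInt p) (n : ℕ) :
    ModP p (x ^ n) (y ^ n) := by
  induction n with
  | zero => simpa using ModP.refl (1 : ℚ)
  | succ n ih =>
    rw [pow_succ, pow_succ]
    exact ih.mul h (pow_mem hx n) (h.mem_iff.1 hx)

theorem modP_natCast_zero {a : ℕ} (h : p ∣ a) : ModP p (a : ℚ) 0 := by
  obtain ⟨b, rfl⟩ := h
  rw [ModP, sub_zero, Nat.cast_mul, mul_div_cancel_left₀ _ (Nat.cast_ne_zero.2 hp.out.ne_zero)]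
  exact natCast_mem _ b

theorem modP_intCast_iff {a b : ℤ} : ModP p (a : ℚ) b ↔ (a : ZMod p) = b := by
  rw [ZMod.intCast_eq_intCast_iff_dvd_sub]
  constructor
  · intro h
    by_contra hd
    have hc : IsCoprime (p : ℤ) (b - a) :=
      (Nat.prime_iff_prime_int.1 hp.out).irreducible.coprime_iff_not_dvd.2 hd
    obtain ⟨u, v, huv⟩ := hc
    refine inv_prime_not_mem (p := p) ?_
    have e : ((p : ℚ))⁻¹ = u - v * (((a : ℚ) - b) / p) := by
      have hp0 : (p : ℚ) ≠ 0 := Nat.cast_ne_zero.2 hp.out.ne_zero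
      have : (u : ℚ) * p + v * (b - a) = 1 := by exact_mod_cast huv
      field_simp
      linear_combination -this
    rw [e]
    exact sub_mem (intCast_mem _ u) (mul_mem (intCast_mem _ v) h)
  · rintro ⟨c, hc⟩
    have : (b : ℚ) - a = p * c := by exact_mod_cast hc
    rw [ModP, show (a : ℚ) - b = p * -(c : ℚ) by linarith,
      mul_div_cancel_left₀ _ (Nat.cast_ne_zero.2 hp.out.ne_zero)]
    exact neg_mem (intCast_mem _ c)

/-- Congruence of Hurwitz series modulo `p`. -/
def SerModP (p : ℕ) [Fact p.Prime] (f g : ℚ⟦X⟧) : Prop := ∀ k, ModP p (hval f k) (hval g k)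

theorem SerModP.refl (f : ℚ⟦X⟧) : SerModP p f f := fun _ => ModP.refl _

theorem SerModP.symm {f g : ℚ⟦X⟧} (h : SerModP p f g) : SerModP p g f := fun k => (h k).symm

theorem SerModP.trans {f g e : ℚ⟦X⟧} (h : SerModP p f g) (h' : SerModP p g e) : SerModP p f e :=
  fun k => (h k).trans (h' k)

theorem SerModP.add {f g e d : ℚ⟦X⟧} (h : SerModP p f g) (h' : SerModP p e d) :
    SerModP p (f + e) (g + d) := fun k => by
  rw [hval_add, hval_add]; exact (h k).add (h' k)

theorem SerModP.mul_left {f g e : ℚ⟦X⟧} (h : SerModP p f g) (he : IsHurwitz (pInt p) e) :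
    SerModP p (e * f) (e * g) := fun k => by
  rw [hval_mul, hval_mul, ModP, ← sum_sub_distrib, sum_div]
  refine sum_mem fun i _ => ?_
  rw [show ((k.choose i : ℚ) * hval e i * hval f (k - i) -
    (k.choose i : ℚ) * hval e i * hval g (k - i)) / (p : ℚ) =
      (k.choose i : ℚ) * hval e i * ((hval f (k - i) - hval g (k - i)) / p) by ring]
  exact mul_mem (mul_mem (natCast_mem _ _) (he _)) (h _)

theorem SerModP.mul_right {f g e : ℚ⟦X⟧} (h : SerModP p f g) (he : IsHurwitz (pInt p) e) :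
    SerModP p (f * e) (g * e) := by
  rw [mul_comm f, mul_comm g]; exact h.mul_left he

theorem SerModP.derivative {f g : ℚ⟦X⟧} (h : SerModP p f g) :
    SerModP p (d⁄dX ℚ f) (d⁄dX ℚ g) := fun k => by
  rw [hval_derivative, hval_derivative]; exact h _

theorem SerModP.iterate {f g : ℚ⟦X⟧} (h : SerModP p f g) (n : ℕ) :
    SerModP p ((d⁄dX ℚ)^[n] f) ((d⁄dX ℚ)^[n] g) := fun k => by
  rw [hval_iterate, hval_iterate]; exact h _

theorem serModP_zero_of_natCast_mul {f : ℚ⟦X⟧} {a : ℕ} (ha : p ∣ a) (hf : IsHurwitz (pInt p) f) :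
    SerModP p ((a : ℚ⟦X⟧) * f) 0 := fun k => by
  rw [← map_natCast (C (R := ℚ)), hval_C_mul, show hval (0 : ℚ⟦X⟧) k = 0 by simp [hval]]
  simpa using ((modP_natCast_zero ha).mul_left (hf k)).trans (by simpa using ModP.refl (0 : ℚ)) |>
    (fun h => by simpa [mul_comm] using h)

/-- **Modulo `p` the `p`-th derivative is a derivation.** -/
theorem iterate_prime_mul {f g : ℚ⟦X⟧} (hf : IsHurwitz (pInt p) f) (hg : IsHurwitz (pInt p) g) :
    SerModP p ((d⁄dX ℚ)^[p] (f * g))
      ((d⁄dX ℚ)^[p] f * g + f * (d⁄dX ℚ)^[p] g) := by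
  have key : ∀ s ⊆ Ico 1 p, SerModP p (∑ i ∈ s,
      (p.choose i : ℚ⟦X⟧) * ((d⁄dX ℚ)^[p - i] f * (d⁄dX ℚ)^[i] g)) 0 := by
    intro s hs
    induction s using Finset.induction with
    | empty => simpa using SerModP.refl 0
    | insert i s hi ih =>
      rw [sum_insert hi]
      have h1 := mem_Ico.1 (hs (mem_insert_self i s))
      simpa using (serModP_zero_of_natCast_mul (hp.out.dvd_choose_self (by omega) h1.2)
        ((hf.iterate _).mul (hg.iterate _))).add
          (ih ((subset_insert i s).trans hs))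
  rw [iterate_derivative_mul, sum_range_succ,
    range_eq_Ico, ← sum_Ico_consecutive _ (Nat.zero_le 1) hp.out.one_lt.le,
    Nat.Ico_succ_singleton]
  have := ((SerModP.refl ((d⁄dX ℚ)^[p] f * g)).add (key (Ico 1 p) subset_rfl)).add
    (SerModP.refl (f * (d⁄dX ℚ)^[p] g))
  simpa using this

end FA.HurwitzStaudt

end
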