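import Fermat.Agent.HurwitzStaudt.Series

/-!
# The series of the lemniscatic sine

`φ'' = -2 φ³`, `φ(0) = 0`, `φ'(0) = 1`. Its derivatives at the origin are integers, `φ'² = 1 - φ⁴`,
and modulo a prime `p` one has `φ^(p) ≡ c φ'` with `c` the binomial coefficient of the logarithm.
-/

set_option autoImplicit false

noncomputable section

namespace FA.HurwitzStaudt

open PowerSeries Finset
open scoped Nat

local notation "D" => d⁄dX ℚ

/-- The coefficients of the lemniscatic sine. -/
def slCoeff : ℕ → ℚ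
  | 0 => 0
  | 1 => 1
  | n + 2 => -2 * coeff n ((PowerSeries.mk fun i => if _h : i < n + 1 then slCoeff i else 0) ^ 3) /
      ((n + 1) * (n + 2))

/-- The lemniscatic sine as a power series. -/
def sl : ℚ⟦X⟧ := PowerSeries.mk slCoeff

/-- Its derivative. -/
def slD : ℚ⟦X⟧ := D sl

theorem coeff_sl_cube (n : ℕ) :
    coeff n (sl ^ 3) =
      coeff n ((PowerSeries.mk fun i => if i < n + 1 then slCoeff i else 0) ^ 3) := by
  have h : X ^ (n + 1) ∣ sl - PowerSeries.mk fun i => if i < n + 1 then slCoeff i else 0 := by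
    rw [X_pow_dvd_iff]
    intro i hi
    simp [sl, Nat.lt_succ_iff.1 hi]
  have := X_pow_dvd_iff.1 (h.trans (sub_dvd_pow_sub_pow _ _ 3)) n n.lt_succ_self
  rwa [map_sub, sub_eq_zero] at this

/-- The differential equation. -/
theorem derivative_slD : D slD = C (-2) * sl ^ 3 := by
  ext n
  rw [slD, coeff_derivative, coeff_derivative, coeff_C_mul, coeff_sl_cube]
  simp only [sl, coeff_mk]
  rw [slCoeff]
  simp only [dite_eq_ite]
  push_cast
  field_simp
  ring

theorem constantCoeff_sl : constantCoeff sl = 0 := by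
  simp [sl, ← coeff_zero_eq_constantCoeff_apply, slCoeff]

theorem constantCoeff_slD : constantCoeff slD = 1 := by
  rw [slD, ← coeff_zero_eq_constantCoeff_apply, coeff_derivative]
  simp [sl, slCoeff]

theorem eq_C_of_derivative_eq_zero {f : ℚ⟦X⟧} (h : D f = 0) : f = C (constantCoeff f) :=
  derivative.ext (by rw [h, derivative_C]) (by rw [constantCoeff_C])

/-- `φ'² = 1 - φ⁴`. -/
theorem slD_sq : slD ^ 2 = 1 - sl ^ 4 := by
  have h : D (slD ^ 2 + sl ^ 4) = 0 := by
    rw [map_add, derivative_pow, derivative_pow, derivative_slD, show D sl = slD from rfl,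
      show (C (-2 : ℚ) : ℚ⟦X⟧) = -2 by rw [map_neg, map_ofNat]]
    ring
  have := eq_C_of_derivative_eq_zero h
  rw [map_add, map_pow, map_pow, constantCoeff_slD, constantCoeff_sl,
    show ((1 : ℚ) ^ 2 + 0 ^ 4) = 1 by norm_num, map_one] at this
  linear_combination this

/-- **The derivatives of the lemniscatic sine at the origin are integers.** -/
theorem isHurwitz_sl (A : Subring ℚ) : IsHurwitz A sl := fun k => by
  induction k using Nat.strong_induction_on with
  | _ k ih =>
    match k with
    | 0 => simp [hval, sl, slCoeff]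
    | 1 => simp [hval, sl, slCoeff]
    | n + 2 =>
      have ht : IsHurwitz A
          (PowerSeries.mk fun i => if i < n + 1 then slCoeff i else 0) := fun i => by
        by_cases hi : i < n + 1
        · simp only [hval, coeff_mk, if_pos hi]
          simpa [hval, sl] using ih i (by omega)
        · simp only [hval, coeff_mk, if_neg hi, mul_zero]
          exact A.zero_mem
      have h1 : hval sl (n + 2) = hval (D slD) n := by
        rw [hval_derivative, slD, hval_derivative]
      rw [h1, derivative_slD, hval_C_mul, hval, coeff_sl_cube]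
      exact mul_mem (neg_mem (ofNat_mem A 2)) ((ht.pow 3) n)

theorem isHurwitz_slD (A : Subring ℚ) : IsHurwitz A slD := (isHurwitz_sl A).derivative

/-- `φ^m / m!` is integral. -/
theorem isHurwitz_sl_pow_div (A : Subring ℚ) (m : ℕ) :
    IsHurwitz A (C ((m ! : ℚ))⁻¹ * sl ^ m) := by
  induction m with
  | zero => simpa using isHurwitz_C A.one_mem
  | succ m ih =>
    refine isHurwitz_of_derivative (by simp [constantCoeff_sl]) ?_
    have e : D (C (((m + 1)! : ℚ))⁻¹ * sl ^ (m + 1)) = C ((m ! : ℚ))⁻¹ * sl ^ m * slD := by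
      rw [Derivation.leibniz, derivative_C, smul_zero, add_zero, smul_eq_mul, derivative_pow,
        Nat.add_sub_cancel, slD, Nat.factorial_succ]
      have : (C (((m + 1 : ℕ) * m ! : ℕ) : ℚ)⁻¹ : ℚ⟦X⟧) * ((m + 1 : ℕ) : ℚ⟦X⟧) =
          C ((m ! : ℚ))⁻¹ := by
        rw [← map_natCast (C (R := ℚ)), ← map_mul]
        congr 1
        have : (m ! : ℚ) ≠ 0 := Nat.cast_ne_zero.2 m.factorial_ne_zero
        push_cast
        field_simp
      rw [← this]
      ring
    rw [e]
    exact ih.mul (isHurwitz_slD A)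

theorem hval_sl_pow_mem (A : Subring ℚ) (m k : ℕ) :
    ∃ B ∈ A, hval (sl ^ m) k = (m ! : ℚ) * B := by
  refine ⟨_, isHurwitz_sl_pow_div A m k, ?_⟩
  rw [hval_C_mul, mul_inv_cancel_left₀ (Nat.cast_ne_zero.2 m.factorial_ne_zero)]

theorem hval_sl_pow_eq_zero {m k : ℕ} (h : k < m) : hval (sl ^ m) k = 0 := by
  obtain ⟨w, hw⟩ := X_dvd_iff.2 constantCoeff_sl
  rw [hval, hw, mul_pow, coeff_X_pow_mul', if_neg (by omega), mul_zero]

theorem hval_sl_pow_self (m : ℕ) : hval (sl ^ m) m = (m ! : ℚ) := by
  obtain ⟨w, hw⟩ := X_dvd_iff.2 constantCoeff_sl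
  have h1 : constantCoeff w = 1 := by
    have := constantCoeff_slD
    rw [slD, hw, Derivation.leibniz, derivative_X, smul_eq_mul, smul_eq_mul, mul_one, map_add,
      map_mul, constantCoeff_X, zero_mul, zero_add] at this
    exact this
  rw [hval, hw, mul_pow, coeff_X_pow_mul', if_pos le_rfl, Nat.sub_self,
    coeff_zero_eq_constantCoeff_apply, map_pow, h1, one_pow, mul_one]

/-- The coefficients of `(1 - t)^(-1/2)`. -/
def bino (j : ℕ) : ℚ := ((2 * j).choose j : ℚ) / 4 ^ j

theorem bino_succ (j : ℕ) : 2 * ((j : ℚ) + 1) * bino (j + 1) = (2 * (j : ℚ) + 1) * bino j := by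
  have h := Nat.succ_mul_centralBinom_succ j
  simp only [Nat.centralBinom] at h
  have h' : ((j : ℚ) + 1) * ((2 * (j + 1)).choose (j + 1) : ℚ) =
      2 * (2 * j + 1) * ((2 * j).choose j : ℚ) := by exact_mod_cast h
  rw [bino, bino, pow_succ]
  field_simp
  linear_combination 2 * h'

/-- The truncated logarithm. -/
def slLog (N : ℕ) : ℚ⟦X⟧ := ∑ j ∈ range N, C (bino j / (4 * j + 1)) * sl ^ (4 * j + 1)

theorem derivative_slLog_aux (N : ℕ) :
    D (slD * ∑ j ∈ range (N + 1), C (bino j) * sl ^ (4 * j)) =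
      -C (4 * (N + 1) * bino (N + 1)) * sl ^ (4 * N + 3) := by
  induction N with
  | zero =>
    simp only [Nat.mul_zero, zero_add, range_one, sum_singleton, pow_zero, mul_one, Nat.cast_zero]
    rw [show bino 0 = 1 by norm_num [bino], map_one, mul_one, derivative_slD, ← map_neg]
    norm_num [bino, Nat.choose]
  | succ N ih =>
    rw [sum_range_succ, mul_add, map_add, ih, Derivation.leibniz, Derivation.leibniz,
      derivative_C, derivative_pow, show D sl = slD from rfl, derivative_slD, smul_eq_mul,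
      smul_eq_mul, smul_eq_mul, mul_zero, add_zero, show 4 * (N + 1) - 1 = 4 * N + 3 by omega,
      show 4 * (N + 1) + 3 = 4 * N + 3 + 4 by omega, show 4 * (N + 1) = 4 * N + 3 + 1 by omega]
    have hb : (C (4 * ((N : ℚ) + 1 + 1) * bino (N + 1 + 1)) : ℚ⟦X⟧) =
        C (2 * (2 * ((N : ℚ) + 1) + 1) * bino (N + 1)) := by
      congr 1
      have := bino_succ (N + 1)
      push_cast at this
      linear_combination 2 * this
    push_cast
    rw [hb]
    simp only [map_mul, map_add, map_natCast, map_one, map_ofNat, map_neg]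
    linear_combination
      (4 * ((N : ℚ⟦X⟧) + 1) * C (bino (N + 1)) * sl ^ (4 * N + 3)) * slD_sq

/-- **The logarithm inverts the lemniscatic sine.** -/
theorem X_pow_dvd_slLog_sub (N : ℕ) : X ^ (4 * N + 1) ∣ slLog N - X := by
  rcases N with _ | N
  · simp [slLog]
  set E := slD * ∑ j ∈ range (N + 1), C (bino j) * sl ^ (4 * j) with hE
  have hD : D (slLog (N + 1) - X) = E - 1 := by
    rw [map_sub, derivative_X, slLog, map_sum, hE, mul_sum]
    congr 1
    refine sum_congr rfl fun j _ => ?_
    rw [Derivation.leibniz, derivative_C, smul_zero, add_zero, smul_eq_mul, derivative_pow,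
      show D sl = slD from rfl, Nat.add_sub_cancel, ← map_natCast (C (R := ℚ))]
    have hb : bino j / (4 * j + 1) * ((4 * j + 1 : ℕ) : ℚ) = bino j := by
      push_cast; field_simp
    conv_rhs => rw [← hb, map_mul]
    ring
  have hdvd : X ^ (4 * N + 3) ∣ D E :=
    ⟨-C (4 * (N + 1) * bino (N + 1)) * (Classical.choose (X_dvd_iff.2 constantCoeff_sl)) ^
      (4 * N + 3), by
      rw [hE, derivative_slLog_aux]
      conv_lhs => rw [Classical.choose_spec (X_dvd_iff.2 constantCoeff_sl)]
      ring⟩
  have hE0 : constantCoeff E = 1 := by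
    simp [hE, constantCoeff_slD, constantCoeff_sl, sum_range_succ', bino]
  have hdvd' : X ^ (4 * N + 4) ∣ E - 1 := by
    rw [X_pow_dvd_iff] at hdvd ⊢
    intro i hi
    rcases i with _ | i
    · simp [hE0]
    · have := hdvd i (by omega)
      rw [coeff_derivative, mul_eq_zero] at this
      rw [map_sub, this.resolve_right (by positivity)]
      simp [coeff_one]
  rw [X_pow_dvd_iff] at hdvd' ⊢
  intro i hi
  rcases i with _ | i
  · simp [slLog, constantCoeff_sl]
  · have := hdvd' i (by omega)
    rw [← hD, coeff_derivative, mul_eq_zero] at this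
    exact this.resolve_right (by positivity)

theorem hval_eq_zero_of_X_pow_dvd {f : ℚ⟦X⟧} {N k : ℕ} (h : X ^ N ∣ f) (hk : k < N) :
    hval f k = 0 := by
  rw [hval, X_pow_dvd_iff.1 h k hk, mul_zero]

section prime

variable {p : ℕ} [hp : Fact p.Prime]

/-- `φ^(p) ≡ c φ'`, `c` the value at the origin. -/
theorem iterate_prime_sl (hodd : p ≠ 2) :
    SerModP p (D^[p] sl) (C (hval sl p) * slD) := by
  have hA := isHurwitz_sl (pInt p)
  have hψ := isHurwitz_slD (pInt p)
  set h := D^[p] sl with hh
  have hhH : IsHurwitz (pInt p) h := hA.iterate p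
  have hDh : D^[p] slD = D h := by
    rw [slD, hh, ← Function.iterate_succ_apply, Function.iterate_succ_apply']
  have h2H : IsHurwitz (pInt p) (C (2⁻¹ : ℚ)) :=
    isHurwitz_C (inv_natCast_mem (d := 2) fun hd =>
      hodd ((Nat.prime_dvd_prime_iff_eq hp.out Nat.prime_two).1 hd))
  have e1 : SerModP p (D^[p] (slD * slD)) (D h * slD + slD * D h) :=
    hDh ▸ iterate_prime_mul hψ hψ
  have e2 : SerModP p (D^[p] (sl * sl * (sl * sl)))
      ((h * sl + sl * h) * (sl * sl) + sl * sl * (h * sl + sl * h)) :=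
    (iterate_prime_mul (hA.mul hA) (hA.mul hA)).trans
      (((iterate_prime_mul hA hA).mul_right (hA.mul hA)).add
        ((iterate_prime_mul hA hA).mul_left (hA.mul hA)))
  have e3 : D^[p] (slD * slD) + D^[p] (sl * sl * (sl * sl)) = 0 := by
    rw [← iterate_map_add, show slD * slD + sl * sl * (sl * sl) = 1 by linear_combination slD_sq]
    obtain ⟨q, hq⟩ : ∃ q, p = q + 1 := ⟨p - 1, by have := hp.out.one_lt; omega⟩
    rw [hq, Function.iterate_succ_apply, derivative_one, iterate_map_zero]
  have e4 : SerModP p (slD * D h + C 2 * (sl ^ 3 * h)) 0 := by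
    have h5 := (e1.add e2).symm
    rw [e3] at h5
    have h6 := h5.mul_left h2H
    rw [mul_zero] at h6
    convert h6 using 1
    rw [show (C 2 : ℚ⟦X⟧) = 2 from map_ofNat _ 2]
    have hh2 : (C (2⁻¹ : ℚ) : ℚ⟦X⟧) * 2 = 1 := by
      rw [← map_ofNat (C (R := ℚ)) 2, ← map_mul]
      norm_num
    linear_combination -(slD * D h + 2 * sl ^ 3 * h) * hh2
  set κ := h * slD⁻¹ with hκ
  have hne : constantCoeff slD ≠ 0 := by rw [constantCoeff_slD]; exact one_ne_zero
  have hinv : IsHurwitz (pInt p) slD⁻¹ := hψ.inv constantCoeff_slD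
  have hDκ : SerModP p (D κ) 0 := by
    have h7 := e4.mul_left (hinv.pow 2)
    rw [mul_zero] at h7
    convert h7 using 1
    rw [hκ, Derivation.leibniz, derivative_inv', derivative_slD, smul_eq_mul, smul_eq_mul,
      map_neg]
    linear_combination (-(D h * slD⁻¹)) * PowerSeries.mul_inv_cancel slD hne
  have hκC : SerModP p κ (C (hval sl p)) := fun k => by
    rcases k with _ | k
    · rw [hval_zero, hval_zero, constantCoeff_C, hκ, map_mul, constantCoeff_inv,
        constantCoeff_slD, inv_one, mul_one, ← hval_zero, hh, hval_iterate, zero_add]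
      exact ModP.refl _
    · have h0 := hDκ k
      rw [hval_derivative, show hval (0 : ℚ⟦X⟧) k = 0 by simp [hval]] at h0
      rwa [show hval (C (hval sl p)) (k + 1) = 0 by
        rw [hval, coeff_C, if_neg k.succ_ne_zero, mul_zero]]
  have h8 := hκC.mul_right hψ
  rwa [hκ, mul_assoc, PowerSeries.inv_mul_cancel slD hne, mul_one] at h8

/-- `(φ^n)^(p) ≡ c (φ^n)'`. -/
theorem iterate_prime_sl_pow (hodd : p ≠ 2) (n : ℕ) :
    SerModP p (D^[p] (sl ^ n)) (C (hval sl p) * D (sl ^ n)) := by
  induction n with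
  | zero =>
    obtain ⟨q, hq⟩ : ∃ q, p = q + 1 := ⟨p - 1, by have := hp.out.one_lt; omega⟩
    have e : D^[p] (1 : ℚ⟦X⟧) = 0 := by
      rw [hq, Function.iterate_succ_apply, derivative_one, iterate_map_zero]
    rw [pow_zero, e, derivative_one, mul_zero]
    exact SerModP.refl 0
  | succ n ih =>
    rw [pow_succ]
    refine (iterate_prime_mul ((isHurwitz_sl _).pow n) (isHurwitz_sl _)).trans ?_
    refine ((ih.mul_right (isHurwitz_sl _)).add
      ((iterate_prime_sl hodd).mul_left ((isHurwitz_sl _).pow n))).trans ?_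
    rw [Derivation.leibniz, smul_eq_mul, smul_eq_mul, show D sl = slD from rfl,
      show C (hval sl p) * D (sl ^ n) * sl + sl ^ n * (C (hval sl p) * slD) =
        C (hval sl p) * (sl ^ n * slD + sl * D (sl ^ n)) by ring]
    exact SerModP.refl _

end prime

end FA.HurwitzStaudt

end
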