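import Fermat.Agent.HurwitzStaudt.Elliptic

/-!
# The Hurwitz numbers at two

The recurrence gives `2 H_n` odd: the sum of `C(4n, 4i)`, `0 < i < n`, is `2` modulo `4`.
-/

set_option autoImplicit false
set_option linter.style.haveILetI false

noncomputable section

namespace FA.HurwitzStaudt

open PowerSeries Finset
open scoped Nat

theorem coeff_wpSeries_four_mul {n : ℕ} (hn : 1 ≤ n) :
    coeff (4 * n) wpSeries =
      (4 * (n : ℚ) - 1) * 2 ^ (4 * n) * hurwitzNumber n / ((4 * n)! : ℚ) := by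
  have hne : (4 * (n : ℚ) - 1) ≠ 0 := by
    have : (1 : ℚ) ≤ n := by exact_mod_cast hn
    intro e; linarith
  rw [hurwitzNumber, bhNum]
  field_simp

theorem sum_range_four_mul {M : Type*} [AddCommMonoid M] (n : ℕ) (g : ℕ → M)
    (h : ∀ i, ¬ 4 ∣ i → g i = 0) :
    ∑ i ∈ range (4 * n + 1), g i = ∑ i ∈ range (n + 1), g (4 * i) := by
  induction n with
  | zero => simp
  | succ n ih =>
    rw [show 4 * (n + 1) + 1 = 4 * n + 1 + 1 + 1 + 1 + 1 by ring, sum_range_succ, sum_range_succ,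
      sum_range_succ, sum_range_succ, ih, h (4 * n + 1) (by omega), h (4 * n + 1 + 1) (by omega),
      h (4 * n + 1 + 1 + 1) (by omega), sum_range_succ _ (n + 1)]
    simp [show 4 * n + 1 + 1 + 1 + 1 = 4 * (n + 1) by ring]

/-- **The recurrence of the Hurwitz numbers.** -/
theorem hurwitzNumber_rec {n : ℕ} (hn : 2 ≤ n) :
    (4 * (n : ℚ) + 1) * (2 * n - 3) * (4 * n - 1) * hurwitzNumber n =
      3 * ∑ i ∈ Ico 1 n, ((4 * n).choose (4 * i) : ℚ) *
        ((4 * i - 1) * hurwitzNumber i * ((4 * ((n - i : ℕ) : ℚ) - 1) *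
          hurwitzNumber (n - i))) := by
  have h := coeff_wpSeries_rec (k := 4 * n) (by omega)
  rw [sum_range_four_mul n _ fun i hi => by rw [coeff_wpSeries_eq_zero hi, zero_mul],
    sum_range_succ, range_eq_Ico, sum_eq_sum_Ico_succ_bot (by omega : 0 < n)] at h
  simp only [zero_add, Nat.sub_self, Nat.mul_zero, Nat.sub_zero, coeff_zero_wpSeries, one_mul,
    mul_one] at h
  have hs : ∑ i ∈ Ico 1 n, coeff (4 * i) wpSeries * coeff (4 * n - 4 * i) wpSeries =
      (2 : ℚ) ^ (4 * n) / ((4 * n)! : ℚ) * ∑ i ∈ Ico 1 n, ((4 * n).choose (4 * i) : ℚ) *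
        ((4 * i - 1) * hurwitzNumber i * ((4 * ((n - i : ℕ) : ℚ) - 1) *
          hurwitzNumber (n - i))) := by
    rw [mul_sum]
    refine sum_congr rfl fun i hi => ?_
    obtain ⟨h1, h2⟩ := mem_Ico.1 hi
    rw [← Nat.mul_sub, coeff_wpSeries_four_mul h1, coeff_wpSeries_four_mul (by omega : 1 ≤ n - i),
      Nat.cast_choose ℚ (by omega : 4 * i ≤ 4 * n), show 4 * n - 4 * i = 4 * (n - i) by omega,
      show (2 : ℚ) ^ (4 * n) = 2 ^ (4 * i) * 2 ^ (4 * (n - i)) by rw [← pow_add]; congr 1; omega]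
    have : ((4 * n)! : ℚ) ≠ 0 := Nat.cast_ne_zero.2 (Nat.factorial_ne_zero _)
    field_simp
  rw [coeff_wpSeries_four_mul (by omega : 1 ≤ n), hs] at h
  have hf : ((4 * n)! : ℚ) ≠ 0 := Nat.cast_ne_zero.2 (Nat.factorial_ne_zero _)
  generalize ∑ i ∈ Ico 1 n, ((4 * n).choose (4 * i) : ℚ) *
    ((4 * i - 1) * hurwitzNumber i * ((4 * ((n - i : ℕ) : ℚ) - 1) * hurwitzNumber (n - i))) = S
    at h ⊢
  push_cast at h
  field_simp at h
  refine mul_left_cancel₀ (mul_ne_zero two_ne_zero (pow_ne_zero (4 * n) two_ne_zero)) ?_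
  linear_combination (2 : ℚ) ^ (4 * n) * h

theorem hurwitzNumber_one : hurwitzNumber 1 = 1 / 10 := by
  have h := bhNum_wpTwist (le_refl 1)
  rw [show 4 * 1 - 2 = 2 from rfl, hval_sl_pow_self] at h
  norm_num [hurwitzNumber] at h ⊢
  linarith

theorem hurwitzNumber_two : hurwitzNumber 2 = 3 / 10 := by
  have h := hurwitzNumber_rec (le_refl 2)
  norm_num [sum_Ico_succ_top, hurwitzNumber_one, Nat.choose_eq_factorial_div_factorial,
    Nat.factorial] at h
  linarith

theorem hurwitzNumber_three : hurwitzNumber 3 = 567 / 130 := by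
  have h := hurwitzNumber_rec (n := 3) (by norm_num)
  norm_num [sum_Ico_succ_top, hurwitzNumber_one, hurwitzNumber_two,
    Nat.choose_eq_factorial_div_factorial, Nat.factorial] at h
  linarith

theorem sum_choose_four (n : ℕ) (hn : 2 ≤ n) :
    ∃ t : ℤ, ((∑ i ∈ Ico 1 n, (4 * n).choose (4 * i) : ℕ) : ℤ) = 2 + 4 * t := by
  obtain ⟨m, rfl⟩ : ∃ m, n = m + 2 := ⟨n - 2, by omega⟩
  have hfilter : ∑ k ∈ range (4 * (m + 2) + 1),
      (if 4 ∣ k then ((4 * (m + 2)).choose k : ℂ) else 0) =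
        ∑ i ∈ range (m + 2 + 1), ((4 * (m + 2)).choose (4 * i) : ℂ) := by
    rw [sum_range_four_mul (m + 2) _ fun i hi => if_neg hi]
    exact sum_congr rfl fun i _ => if_pos (dvd_mul_right 4 i)
  have hroots : ∀ k : ℕ, (1 : ℂ) + Complex.I ^ k + (-1) ^ k + (-Complex.I) ^ k =
      if 4 ∣ k then 4 else 0 := fun k => by
    obtain ⟨q, r, hr, rfl⟩ : ∃ q r, r < 4 ∧ k = 4 * q + r := ⟨k / 4, k % 4, by omega, by omega⟩
    simp only [pow_add, pow_mul, Complex.I_pow_four,
      show (-Complex.I) ^ 4 = 1 by rw [Even.neg_pow (by decide), Complex.I_pow_four],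
      show ((-1 : ℂ)) ^ 4 = 1 by norm_num, one_pow, one_mul]
    interval_cases r
    · rw [add_zero (4 * q), if_pos (dvd_mul_right 4 q)]; norm_num
    all_goals rw [if_neg (by omega)]
    all_goals simp [pow_succ, Complex.I_mul_I]
  set N := 4 * (m + 2) with hN
  have hsum : ∀ x : ℂ, ∑ k ∈ range (N + 1), x ^ k * (N.choose k : ℂ) = (x + 1) ^ N := fun x => by
    rw [add_pow]
    exact sum_congr rfl fun k _ => by simp
  have h4 : 4 * ∑ i ∈ range (m + 2 + 1), (N.choose (4 * i) : ℂ) =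
      2 ^ N + 2 * (-4) ^ (m + 2) := by
    rw [← hfilter, mul_sum]
    calc _ = ∑ k ∈ range (N + 1),
          ((1 : ℂ) ^ k + Complex.I ^ k + (-1) ^ k + (-Complex.I) ^ k) * (N.choose k : ℂ) := by
            refine sum_congr rfl fun k _ => ?_
            rw [one_pow, hroots]
            split_ifs <;> ring
      _ = _ := by
        simp only [add_mul, sum_add_distrib, hsum]
        rw [neg_add_cancel, zero_pow (by omega), hN, pow_mul (Complex.I + 1),
          pow_mul (-Complex.I + 1), show (Complex.I + 1) ^ 4 = -4 by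
            linear_combination (Complex.I ^ 2 + 4 * Complex.I + 5) * Complex.I_sq,
          show (-Complex.I + 1) ^ 4 = -4 by
            linear_combination (Complex.I ^ 2 - 4 * Complex.I + 5) * Complex.I_sq]
        norm_num
        ring
  rw [sum_range_succ, range_eq_Ico, sum_eq_sum_Ico_succ_bot (by omega : 0 < m + 2), zero_add,
    Nat.mul_zero, Nat.choose_zero_right, show 4 * (m + 2) = N from hN.symm, Nat.choose_self] at h4
  refine ⟨4 * (2 ^ (4 * m)) * 4 + 2 * (-4) ^ m - 1, ?_⟩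
  have h5 : ((∑ i ∈ Ico 1 (m + 2), N.choose (4 * i) : ℕ) : ℂ) =
      ((2 + 4 * (4 * (2 ^ (4 * m)) * 4 + 2 * (-4) ^ m - 1) : ℤ) : ℂ) := by
    push_cast
    refine mul_left_cancel₀ (by norm_num : (4 : ℂ) ≠ 0) ?_
    rw [hN] at h4 ⊢
    push_cast at h4
    rw [show 4 * (m + 2) = 4 * m + 8 by ring] at h4 ⊢
    rw [pow_add, pow_add] at h4
    linear_combination h4
  exact_mod_cast h5

section two

variable [Fact (Nat.Prime 2)]

theorem intCast_odd_modP {z : ℤ} (hz : z % 2 = 1) : ModP 2 (z : ℚ) 1 := by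
  have := (modP_intCast_iff (p := 2) (a := z) (b := 1)).2 (by
    rw [ZMod.intCast_eq_intCast_iff_dvd_sub]
    push_cast
    omega)
  simpa using this

/-- **`2 H_n` is odd.** -/
theorem two_mul_hurwitzNumber_modP : ∀ n, 1 ≤ n → ModP 2 (2 * hurwitzNumber n) 1 := by
  intro n
  induction n using Nat.strong_induction_on with
  | _ n ih =>
    intro hn
    rcases Nat.lt_or_ge n 2 with h | h
    · obtain rfl : n = 1 := by omega
      rw [hurwitzNumber_one, ModP, mem_pInt]
      norm_num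
    set w : ℕ → ℚ := fun i => (4 * i - 1) * (2 * hurwitzNumber i) *
      ((4 * ((n - i : ℕ) : ℚ) - 1) * (2 * hurwitzNumber (n - i))) with hw
    have hodd1 : ∀ i : ℕ, ModP 2 (4 * (i : ℚ) - 1) 1 := fun i => by
      have := intCast_odd_modP (z := 4 * (i : ℤ) - 1) (by omega)
      push_cast at this
      exact this
    have hw1 : ∀ i ∈ Ico 1 n, ModP 2 (w i) 1 := fun i hi => by
      obtain ⟨h1, h2⟩ := mem_Ico.1 hi
      have e := (hodd1 i).mul (ih i h2 h1) ((hodd1 i).mem_iff.2 (pInt 2).one_mem) (pInt 2).one_mem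
      have e' := (hodd1 (n - i)).mul (ih (n - i) (by omega) (by omega))
        ((hodd1 (n - i)).mem_iff.2 (pInt 2).one_mem) (pInt 2).one_mem
      have := e.mul e' (e.mem_iff.2 (by simp))
        (by simp)
      simpa [hw, mul_assoc] using this
    set f : ℕ → ℚ := fun i => ((4 * n).choose (4 * i) : ℚ) * ((w i - 1) / 2) with hf
    have hfmem : ∀ i ∈ Ico 1 n, f i ∈ pInt 2 := fun i hi =>
      mul_mem (natCast_mem _ _) (by simpa [ModP] using hw1 i hi)
    have hfsymm : ∀ i ∈ Ico 1 n, f (n - i) = f i := fun i hi => by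
      obtain ⟨h1, h2⟩ := mem_Ico.1 hi
      simp only [hf, hw, show n - (n - i) = i by omega]
      rw [← Nat.choose_symm (by omega : 4 * i ≤ 4 * n), show 4 * n - 4 * i = 4 * (n - i) by omega]
      ring
    have hS : (∑ i ∈ Ico 1 n, f i) / 2 ∈ pInt 2 := by
      have hsplit : ∑ i ∈ Ico 1 n, f i = (∑ i ∈ Ico 1 n with 2 * i < n, f i) +
          ((∑ i ∈ Ico 1 n with n < 2 * i, f i) + ∑ i ∈ Ico 1 n with 2 * i = n, f i) := by
        rw [← sum_filter_add_sum_filter_not (Ico 1 n) (fun i => 2 * i < n),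
          ← sum_filter_add_sum_filter_not ((Ico 1 n).filter fun i => ¬ 2 * i < n)
            (fun i => n < 2 * i)]
        simp only [filter_filter]
        congr 2 <;> refine sum_congr (filter_congr fun i _ => ?_) fun _ _ => rfl <;>
          constructor <;> omega
      have hrefl : ∑ i ∈ Ico 1 n with n < 2 * i, f i = ∑ i ∈ Ico 1 n with 2 * i < n, f i := by
        refine sum_nbij' (fun i => n - i) (fun i => n - i) ?_ ?_ ?_ ?_ ?_
        all_goals intro i hi
        all_goals simp only [mem_filter, mem_Ico] at hi ⊢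
        pick_goal 5
        · exact (hfsymm i (mem_Ico.2 hi.1)).symm
        all_goals omega
      rw [hsplit, hrefl, ← add_assoc, ← two_mul, add_div, mul_div_cancel_left₀ _ two_ne_zero]
      refine add_mem (sum_mem fun i hi => hfmem i (filter_subset _ _ hi)) ?_
      rw [sum_div]
      refine sum_mem fun i hi => ?_
      obtain ⟨hi1, hi2⟩ := mem_filter.1 hi
      have heven : 2 ∣ (4 * n).choose (4 * i) := by
        obtain ⟨j, hj⟩ : ∃ j, 4 * i = j + 1 := ⟨4 * i - 1, by have := mem_Ico.1 hi1; omega⟩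
        rw [show 4 * n = 2 * j + 1 + 1 by omega, hj, Nat.choose_succ_succ,
          ← Nat.choose_symm_half]
        exact ⟨(2 * j + 1).choose (j + 1), (two_mul _).symm⟩
      obtain ⟨c, hc⟩ := heven
      simp only [hf, hc, Nat.cast_mul, Nat.cast_ofNat]
      rw [show 2 * (c : ℚ) * ((w i - 1) / 2) / 2 = (c : ℚ) * ((w i - 1) / 2) by ring]
      exact mul_mem (natCast_mem _ _) (by simpa [ModP] using hw1 i hi1)
    obtain ⟨t, ht⟩ := sum_choose_four n h
    have hsumw : ∑ i ∈ Ico 1 n, ((4 * n).choose (4 * i) : ℚ) * w i =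
        (2 + 4 * t) + 2 * ∑ i ∈ Ico 1 n, f i := by
      rw [show (2 + 4 * t : ℚ) = ((2 + 4 * t : ℤ) : ℚ) by push_cast; rfl, ← ht, Int.cast_natCast,
        Nat.cast_sum, mul_sum, ← sum_add_distrib]
      exact sum_congr rfl fun i _ => by simp only [hf]; ring
    have hrec := hurwitzNumber_rec h
    have h2 : (4 * (n : ℚ) + 1) * (2 * n - 3) * (4 * n - 1) * (2 * hurwitzNumber n) =
        3 * (1 + 2 * (t + (∑ i ∈ Ico 1 n, f i) / 2)) := by
      have e : ∑ i ∈ Ico 1 n, ((4 * n).choose (4 * i) : ℚ) * w i =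
          4 * ∑ i ∈ Ico 1 n, ((4 * n).choose (4 * i) : ℚ) * ((4 * i - 1) * hurwitzNumber i *
            ((4 * ((n - i : ℕ) : ℚ) - 1) *
          hurwitzNumber (n - i))) := by
        rw [mul_sum]
        exact sum_congr rfl fun i _ => by simp only [hw]; ring
      linear_combination 2 * hrec + (-(3 : ℚ) / 2) * e + (3 / 2 : ℚ) * hsumw
    set A : ℤ := (4 * (n : ℤ) + 1) * (2 * n - 3) * (4 * n - 1) with hA
    have hAodd : A % 2 = 1 := by
      rw [hA, Int.mul_emod, Int.mul_emod (4 * (n : ℤ) + 1), show (4 * (n : ℤ) + 1) % 2 = 1 by omega,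
        show (2 * (n : ℤ) - 3) % 2 = 1 by omega, show (4 * (n : ℤ) - 1) % 2 = 1 by omega]
      rfl
    have hAinv : ((A : ℚ))⁻¹ ∈ pInt 2 := by
      rw [mem_pInt, Rat.inv_intCast_den]
      split_ifs with h0
      · norm_num
      · omega
    have h3 : (2 * hurwitzNumber n - 1) / 2 =
        ((A : ℚ))⁻¹ * (3 * (t + (∑ i ∈ Ico 1 n, f i) / 2) + (3 - A) / 2) := by
      have : (A : ℚ) ≠ 0 := by
        have : A ≠ 0 := fun e => by rw [e] at hAodd; norm_num at hAodd
        exact_mod_cast this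
      have eA : (A : ℚ) = (4 * (n : ℚ) + 1) * (2 * n - 3) * (4 * n - 1) := by
        rw [hA]; push_cast; ring
      rw [← eA] at h2
      field_simp
      linear_combination h2
    show (2 * hurwitzNumber n - 1) / ((2 : ℕ) : ℚ) ∈ pInt 2
    rw [Nat.cast_ofNat, h3]
    refine mul_mem hAinv (add_mem (mul_mem (ofNat_mem _ 3) (add_mem (intCast_mem _ t) hS)) ?_)
    obtain ⟨r, hr⟩ : (2 : ℤ) ∣ 3 - A := by omega
    rw [show (3 - (A : ℚ)) / 2 = ((3 - A : ℤ) : ℚ) / 2 by push_cast; ring, hr, Int.cast_mul,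
      Int.cast_ofNat, mul_div_cancel_left₀ _ two_ne_zero]
    exact intCast_mem _ r

theorem hurwitzNumber_sub_half_mem {n : ℕ} (hn : 1 ≤ n) :
    hurwitzNumber n - 1 / 2 ∈ pInt 2 := by
  have h : (2 * hurwitzNumber n - 1) / ((2 : ℕ) : ℚ) ∈ pInt 2 := two_mul_hurwitzNumber_modP n hn
  convert h using 1
  push_cast
  ring

end two

end FA.HurwitzStaudt

end
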